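import Mathlib
import Fermat.Prelude.Def_Stickelberger_Basic
import Fermat.Agent.S14.Stick.Main

/-!
# Endgame of S14: Stickelberger kills the Artin symbol of a degree one prime

Abstract form: given a multiplicative map `ψ` from nonzero ideals of `𝓞 F`, `F = ℚ(ζ_p)`, to an
abelian group of exponent `p`, trivial on principal ideals and `ω⁻¹`-equivariant, `ψ` vanishes on
every degree one prime not above `p`.
-/

set_option autoImplicit false

namespace Fermat.Agent.S14

open NumberField Finset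

theorem eg_sum_Icc_mul_two (k : ℕ) : (∑ c ∈ Finset.Icc 1 k, c) * 2 = k * (k + 1) := by
  induction k with
  | zero => simp
  | succ k ih =>
    rw [Finset.sum_Icc_succ_top (by omega), add_mul, ih]
    ring

/-- `∑_{0 < c < p/2} c = (p² - 1)/8` is prime to `p`. -/
theorem eg_coprime_eigenvalueScalar {p : ℕ} (hp : p.Prime) (hp2 : p ≠ 2) :
    Nat.Coprime (Stickelberger.eigenvalueScalar p) p := by
  have hodd : p % 2 = 1 := hp.eq_two_or_odd.resolve_left hp2
  have hset : Stickelberger.exponentSet p = Finset.Icc 1 ((p - 1) / 2) := by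
    ext c
    rw [Stickelberger.mem_exponentSet, Finset.mem_Icc]
    omega
  obtain ⟨k, hk⟩ : ∃ k, p = 2 * k + 1 := ⟨p / 2, by omega⟩
  have hk1 : (p - 1) / 2 = k := by omega
  have hsum : Stickelberger.eigenvalueScalar p * 2 = k * (k + 1) := by
    rw [Stickelberger.eigenvalueScalar, hset, hk1, eg_sum_Icc_mul_two]
  have hk0 : 0 < k := by
    have := hp.two_le
    omega
  rw [Nat.coprime_comm, Nat.Prime.coprime_iff_not_dvd hp]
  intro hdvd
  have h1 : p ∣ k * (k + 1) := by
    rw [← hsum]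
    exact Dvd.dvd.mul_right hdvd 2
  rcases (Nat.Prime.dvd_mul hp).mp h1 with h | h
  · have := Nat.le_of_dvd hk0 h
    omega
  · have := Nat.le_of_dvd (by omega) h
    omega

section endgame

variable {p : ℕ} [hp : Fact p.Prime] {F : Type*} [Field F] [NumberField F]
  [IsCyclotomicExtension {p} ℚ F]

/-- **Endgame.** A multiplicative, `ω⁻¹`-equivariant map on ideals which kills principal ideals
and takes values in an abelian group of exponent `p` kills every degree one prime not above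
`p`. -/
theorem eg_artin_eq_one (hp2 : p ≠ 2) {G : Type*} [CommGroup G] (hG : ∀ g : G, g ^ p = 1)
    {ζ : 𝓞 F} (hζ : IsPrimitiveRoot ζ p)
    (τ : ℕ → (𝓞 F ≃+* 𝓞 F)) (hτ : ∀ c, 0 < c → c < p → τ c ζ = ζ ^ c)
    (ψ : Ideal (𝓞 F) → G)
    (hmul : ∀ I J : Ideal (𝓞 F), I ≠ ⊥ → J ≠ ⊥ → ψ (I * J) = ψ I * ψ J)
    (hone : ψ ⊤ = 1)
    (hprinc : ∀ α : 𝓞 F, α ≠ 0 → ψ (Ideal.span {α}) = 1)
    (q : Ideal (𝓞 F)) [hqp : q.IsPrime] {ℓ : ℕ} (hℓ : ℓ.Prime) (hℓp : ℓ ≠ p)
    (hq : Ideal.absNorm q = ℓ)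
    (hequiv : ∀ c, 0 < c → 2 * c < p → ψ (Ideal.comap (τ c) q) = ψ q ^ c) :
    ψ q = 1 := by
  classical
  have hq0 : q ≠ ⊥ := by
    intro h
    rw [h, Ideal.absNorm_bot] at hq
    exact hℓ.ne_zero hq.symm
  have hcomap0 : ∀ c, Ideal.comap (τ c) q ≠ ⊥ := by
    intro c h
    have h1 := absNorm_comap_ringEquiv (τ c) q
    rw [h, Ideal.absNorm_bot, hq] at h1
    exact hℓ.ne_zero h1.symm
  -- ψ of a finite product of nonzero ideals
  have hprod : ∀ s : Finset ℕ, (∏ c ∈ s, Ideal.comap (τ c) q) ≠ ⊥ ∧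
      ψ (∏ c ∈ s, Ideal.comap (τ c) q) = ∏ c ∈ s, ψ (Ideal.comap (τ c) q) := by
    intro s
    induction s using Finset.induction_on with
    | empty =>
      refine ⟨?_, ?_⟩
      · rw [Finset.prod_empty, Ideal.one_eq_top]
        exact top_ne_bot
      · rw [Finset.prod_empty, Finset.prod_empty, Ideal.one_eq_top, hone]
    | insert a s ha ih =>
      refine ⟨?_, ?_⟩
      · rw [Finset.prod_insert ha]
        exact mul_ne_zero (hcomap0 a) ih.1
      · rw [Finset.prod_insert ha, Finset.prod_insert ha, hmul _ _ (hcomap0 a) ih.1, ih.2]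
  obtain ⟨hne, hψ⟩ := hprod (Stickelberger.exponentSet p)
  obtain ⟨⟨J, hJ⟩⟩ := stick_isPrincipal hp2 hζ τ hτ q hℓ hℓp hq
  have hJ' : (∏ c ∈ Stickelberger.exponentSet p, Ideal.comap (τ c) q) = Ideal.span {J} := by
    rw [hJ]
  have hJ0 : J ≠ 0 := by
    intro h0
    rw [hJ', h0, Ideal.span_singleton_eq_bot.mpr rfl] at hne
    exact hne rfl
  have h1 : ψ q ^ Stickelberger.eigenvalueScalar p = 1 := by
    rw [Stickelberger.eigenvalueScalar, ← Finset.prod_pow_eq_pow_sum]
    rw [← hprinc J hJ0, ← hJ', hψ]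
    refine Finset.prod_congr rfl fun c hc => ?_
    rw [Stickelberger.mem_exponentSet] at hc
    exact (hequiv c hc.1 hc.2).symm
  have hcop := eg_coprime_eigenvalueScalar hp.out hp2
  have h2 : orderOf (ψ q) ∣ Stickelberger.eigenvalueScalar p := orderOf_dvd_of_pow_eq_one h1
  have h3 : orderOf (ψ q) ∣ p := orderOf_dvd_of_pow_eq_one (hG _)
  have h4 : orderOf (ψ q) ∣ 1 := by
    rw [← hcop]
    exact Nat.dvd_gcd h2 h3
  exact orderOf_eq_one_iff.mp (Nat.dvd_one.mp h4)

end endgame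

end Fermat.Agent.S14
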