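import Mathlib
import Fermat.Agent.S14.Reduction.Field
import Fermat.Agent.S14.Artin.ArtinMap
import Fermat.Agent.S14.Density.Infinite
import Fermat.Agent.S14.Endgame

/-!
# S14: the number field statement from Artin reciprocity

`fn_false_of_reciprocity`: let `F = ℚ(ζ_p)`, `K/F` Galois of degree `p`, unramified at every
finite prime, `K/ℚ` Galois, with `Gal(F/ℚ)` acting on `Gal(K/F)` through `ω⁻¹`.  If the Artin map
`am_artinFun F K` kills the principal ideals (reciprocity, oracle `(R)`), we get a contradiction: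
Stickelberger's theorem (`eg_artin_eq_one`) kills the Frobenius of every degree one prime not
above `p`, while the density theorem (`dn_infinite_not_split`) produces such a prime with
nontrivial Frobenius.

`nf_statement_of_reciprocity`: hence `Reduction.NFStatement p` follows from reciprocity.
-/

set_option autoImplicit false
set_option linter.unusedSectionVars false
set_option linter.style.haveILetI false

namespace Fermat.Agent.S14

open NumberField IsDedekindDomain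
open scoped IsMulCommutative

section

variable {p : ℕ} [hp : Fact p.Prime] {F K : Type*} [Field F] [NumberField F] [Field K]
  [NumberField K] [Algebra F K] [IsGalois F K]

theorem fn_card_gal (hdeg : Module.finrank F K = p) : Nat.card Gal(K/F) = p := by
  rw [IsGalois.card_aut_eq_finrank, hdeg]

theorem fn_isMulCommutative (hdeg : Module.finrank F K = p) : IsMulCommutative Gal(K/F) := by
  have hc : IsCyclic Gal(K/F) := isCyclic_of_prime_card (fn_card_gal hdeg)
  exact ⟨⟨fun a b ↦ (IsCyclic.commGroup (α := Gal(K/F))).mul_comm a b⟩⟩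

theorem fn_pow_eq_one (hdeg : Module.finrank F K = p) (g : Gal(K/F)) : g ^ p = 1 := by
  have := pow_card_eq_one' (G := Gal(K/F)) (x := g)
  rwa [fn_card_gal hdeg] at this

theorem fn_unram
    (hunr : ∀ (P : Ideal (𝓞 K)), P.IsPrime → P ≠ ⊥ →
      ∀ τ : K ≃ₐ[F] K, (∀ x : 𝓞 K, τ • x - x ∈ P) → τ = 1)
    (q : Ideal (𝓞 F)) (hq0 : q ≠ ⊥) : am_Unram F K q := by
  intro Q hQ hQq
  have hQ0 : Q ≠ ⊥ := am_ne_bot_of_liesOver hq0 Q
  rw [Subgroup.eq_bot_iff_forall]
  intro τ hτ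
  exact hunr Q hQ hQ0 τ hτ

end

section

variable (p : ℕ) [hp : Fact p.Prime] (F : Type*) [Field F] [NumberField F]
  [IsCyclotomicExtension {p} ℚ F]

/-- The distinguished primitive `p`-th root of unity of `𝓞 F`. -/
noncomputable def fnZeta : 𝓞 F := (IsCyclotomicExtension.zeta_spec p ℚ F).toInteger

theorem fn_isPrimitiveRoot_fnZeta : IsPrimitiveRoot (fnZeta p F) p :=
  (IsCyclotomicExtension.zeta_spec p ℚ F).toInteger_isPrimitiveRoot

theorem fn_coe_fnZeta : ((fnZeta p F : 𝓞 F) : F) = IsCyclotomicExtension.zeta p ℚ F := rfl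

/-- The automorphism `σ_c : ζ ↦ ζ ^ c` of `F = ℚ(ζ_p)` (junk `1` if `p ∣ c`). -/
noncomputable def fnSigma (c : ℕ) : Gal(F/ℚ) :=
  if h : Nat.Coprime c p then
    IsCyclotomicExtension.fromZetaAut
      ((IsCyclotomicExtension.zeta_spec p ℚ F).pow_of_coprime c h)
      (Polynomial.cyclotomic.irreducible_rat hp.out.pos)
  else 1

theorem fn_fnSigma_zeta {c : ℕ} (hc0 : 0 < c) (hcp : c < p) :
    fnSigma p F c (IsCyclotomicExtension.zeta p ℚ F) = IsCyclotomicExtension.zeta p ℚ F ^ c := by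
  have h : Nat.Coprime c p := (Nat.coprime_of_lt_prime hc0.ne' hcp hp.out).symm
  rw [fnSigma, dif_pos h]
  exact IsCyclotomicExtension.fromZetaAut_spec _ _

/-- The ring automorphism of `𝓞 F` induced by `σ_c`. -/
noncomputable def fnTau (c : ℕ) : 𝓞 F ≃+* 𝓞 F :=
  RingOfIntegers.mapRingEquiv (fnSigma p F c : F ≃+* F)

theorem fn_coe_fnTau (c : ℕ) (x : 𝓞 F) : ((fnTau p F c x : 𝓞 F) : F) = fnSigma p F c (x : F) := rfl

theorem fn_fnTau_zeta {c : ℕ} (hc0 : 0 < c) (hcp : c < p) :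
    fnTau p F c (fnZeta p F) = fnZeta p F ^ c := by
  apply RingOfIntegers.ext
  rw [fn_coe_fnTau, fn_coe_fnZeta, fn_fnSigma_zeta p F hc0 hcp]
  simp [fn_coe_fnZeta]

end

section Conj

variable {F K : Type*} [Field F] [NumberField F] [Field K] [NumberField K] [Algebra F K]

/-- Conjugate of `φ ∈ Gal(K/F)` by a ring automorphism `s` of `K` stabilising `F`:
`x ↦ s⁻¹ (φ (s x))`. -/
noncomputable def fnConj (s : K ≃+* K) (σ : F ≃+* F)
    (hs : ∀ a : F, s (algebraMap F K a) = algebraMap F K (σ a)) (φ : Gal(K/F)) : Gal(K/F) :=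
  AlgEquiv.ofRingEquiv (f := (s.trans (φ : K ≃+* K)).trans s.symm) (by
    intro a
    simp only [RingEquiv.trans_apply, hs, AlgEquiv.coe_ringEquiv, AlgEquiv.commutes]
    rw [← hs, RingEquiv.symm_apply_apply])

theorem fn_fnConj_apply (s : K ≃+* K) (σ : F ≃+* F)
    (hs : ∀ a : F, s (algebraMap F K a) = algebraMap F K (σ a)) (φ : Gal(K/F)) (x : K) :
    fnConj s σ hs φ x = s.symm (φ (s x)) := rfl

variable [IsGalois F K] [IsMulCommutative Gal(K/F)]

/-- **Equivariance of the Frobenius**: for a ring automorphism `s` of `K` inducing `σ` on `F`,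
the Frobenius of `σ⁻¹(q)` is the conjugate `s⁻¹ ∘ Frob_q ∘ s`. -/
theorem fn_frob_comap (s : K ≃+* K) (σ : F ≃+* F)
    (hs : ∀ a : F, s (algebraMap F K a) = algebraMap F K (σ a))
    (hunr : ∀ q' : Ideal (𝓞 F), q' ≠ ⊥ → am_Unram F K q')
    (q : Ideal (𝓞 F)) [hq : q.IsPrime] (hq0 : q ≠ ⊥) :
    am_frob F K (Ideal.comap (RingOfIntegers.mapRingEquiv σ) q) =
      fnConj s σ hs (am_frob F K q) := by
  set t := RingOfIntegers.mapRingEquiv σ with ht
  set ŝ := RingOfIntegers.mapRingEquiv s with hŝ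
  have hq'0 : Ideal.comap t q ≠ ⊥ := by
    intro h
    have h1 := absNorm_comap_ringEquiv t q
    rw [h, Ideal.absNorm_bot] at h1
    exact hq0 (Ideal.absNorm_eq_zero_iff.mp h1.symm)
  haveI hq' : (Ideal.comap t q).IsPrime := Ideal.comap_isPrime t q
  obtain ⟨Q, hQ, hQq, hQ0⟩ := am_exists_prime_over K q hq0
  haveI : (Ideal.comap ŝ Q).IsPrime := Ideal.comap_isPrime ŝ Q
  have hst : ∀ x : 𝓞 F, ŝ (algebraMap (𝓞 F) (𝓞 K) x) = algebraMap (𝓞 F) (𝓞 K) (t x) := by
    intro x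
    apply RingOfIntegers.ext
    exact hs x
  haveI : (Ideal.comap ŝ Q).LiesOver (Ideal.comap t q) := by
    constructor
    ext x
    rw [Ideal.mem_comap, Ideal.under_def, Ideal.mem_comap, Ideal.mem_comap, hst,
      hQq.over, Ideal.under_def, Ideal.mem_comap]
  symm
  refine am_frob_unique hq'0 (hunr _ hq'0) (Ideal.comap ŝ Q) ?_
  intro x
  have hcard : Nat.card (𝓞 F ⧸ (Ideal.comap ŝ Q).under (𝓞 F)) = Nat.card (𝓞 F ⧸ q) := by
    rw [← Ideal.over_def (Ideal.comap ŝ Q) (Ideal.comap t q), ← am_absNorm_eq_natCard,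
      ← am_absNorm_eq_natCard, absNorm_comap_ringEquiv]
  rw [hcard]
  change ŝ (_ - _) ∈ Q
  rw [map_sub, map_pow]
  have h1 : ŝ ((MulSemiringAction.toAlgHom (𝓞 F) (𝓞 K) (fnConj s σ hs (am_frob F K q))) x) =
      am_frob F K q • ŝ x := by
    apply RingOfIntegers.ext
    change s (fnConj s σ hs (am_frob F K q) (x : K)) = am_frob F K q (s (x : K))
    rw [fn_fnConj_apply, RingEquiv.apply_symm_apply]
  rw [h1]
  exact am_frob_spec' q hq0 Q (ŝ x)

end Conj

section Act

variable {F K : Type*} [Field F] [NumberField F] [Field K] [NumberField K] [Algebra F K]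

theorem fn_restrictScalars_pow_apply (φ : Gal(K/F)) (c : ℕ) (y : K) :
    ((φ.restrictScalars ℚ) ^ c) y = (φ ^ c) y := by
  induction c generalizing y with
  | zero => rfl
  | succ c ih =>
    rw [pow_succ, pow_succ, AlgEquiv.mul_apply, AlgEquiv.mul_apply, ih]
    rfl

/-- From the relation `s φ^c s⁻¹ = φ` in `Gal(K/ℚ)` to `s⁻¹ φ s = φ^c` pointwise. -/
theorem fn_symm_apply_eq_pow (s : K ≃ₐ[ℚ] K) (φ : Gal(K/F)) (c : ℕ)
    (h : s * (φ.restrictScalars ℚ) ^ c * s⁻¹ = φ.restrictScalars ℚ) (y : K) :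
    s.symm (φ (s y)) = (φ ^ c) y := by
  have h1 := DFunLike.congr_fun h (s y)
  rw [AlgEquiv.mul_apply, AlgEquiv.mul_apply, AlgEquiv.aut_inv, AlgEquiv.symm_apply_apply,
    fn_restrictScalars_pow_apply] at h1
  rw [AlgEquiv.symm_apply_eq]
  exact h1.symm

end Act

section Main

variable {p : ℕ} [hp : Fact p.Prime] {F K : Type*} [Field F] [NumberField F]
  [IsCyclotomicExtension {p} ℚ F] [Field K] [NumberField K] [Algebra F K] [IsGalois F K]
  [IsGalois ℚ K]

theorem fn_frob_comap_fnTau [IsMulCommutative Gal(K/F)]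
    (hunr : ∀ q' : Ideal (𝓞 F), q' ≠ ⊥ → am_Unram F K q')
    (ζ : K) (hζ : IsPrimitiveRoot ζ p)
    (hact : ∀ (σ : K ≃ₐ[ℚ] K) (τ : K ≃ₐ[F] K) (a : ℕ), σ ζ = ζ ^ a →
      σ * (τ.restrictScalars ℚ) ^ a * σ⁻¹ = τ.restrictScalars ℚ)
    (q : Ideal (𝓞 F)) [q.IsPrime] (hq0 : q ≠ ⊥) {c : ℕ} (hc0 : 0 < c) (hcp : c < p) :
    am_frob F K (Ideal.comap (fnTau p F c) q) = am_frob F K q ^ c := by
  set σ := fnSigma p F c with hσ
  set s : K ≃ₐ[ℚ] K := σ.liftNormal K with hs_def
  have hs : ∀ a : F, (s : K ≃+* K) (algebraMap F K a) = algebraMap F K ((σ : F ≃+* F) a) :=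
    fun a ↦ σ.liftNormal_commutes K a
  have hsζ : s ζ = ζ ^ c := by
    have hζ' : IsPrimitiveRoot (algebraMap F K (IsCyclotomicExtension.zeta p ℚ F)) p :=
      (IsCyclotomicExtension.zeta_spec p ℚ F).map_of_injective (algebraMap F K).injective
    obtain ⟨i, _, hi⟩ := hζ'.eq_pow_of_pow_eq_one hζ.pow_eq_one
    have h1 : s (algebraMap F K (IsCyclotomicExtension.zeta p ℚ F)) =
        algebraMap F K (IsCyclotomicExtension.zeta p ℚ F) ^ c := by
      rw [hs_def, AlgEquiv.liftNormal_commutes, hσ, fn_fnSigma_zeta p F hc0 hcp, map_pow]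
    rw [← hi, map_pow, h1, ← pow_mul, ← pow_mul, mul_comm]
  have h1 := fn_frob_comap (s : K ≃+* K) (σ : F ≃+* F) hs hunr q hq0
  rw [show fnTau p F c = RingOfIntegers.mapRingEquiv (σ : F ≃+* F) from rfl, h1]
  ext y
  rw [fn_fnConj_apply]
  exact fn_symm_apply_eq_pow s _ c (hact s _ c hsζ) y

/-- **The contradiction**, given reciprocity for `K/F`. -/
theorem fn_false_of_reciprocity [IsMulCommutative Gal(K/F)] (h3 : 3 ≤ p)
    (hdeg : Module.finrank F K = p)
    (hunr : ∀ (P : Ideal (𝓞 K)), P.IsPrime → P ≠ ⊥ →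
      ∀ τ : K ≃ₐ[F] K, (∀ x : 𝓞 K, τ • x - x ∈ P) → τ = 1)
    (ζ : K) (hζ : IsPrimitiveRoot ζ p)
    (hact : ∀ (σ : K ≃ₐ[ℚ] K) (τ : K ≃ₐ[F] K) (a : ℕ), σ ζ = ζ ^ a →
      σ * (τ.restrictScalars ℚ) ^ a * σ⁻¹ = τ.restrictScalars ℚ)
    (hR : ∀ α : 𝓞 F, α ≠ 0 → am_artinFun F K (Ideal.span {α}) = 1) : False := by
  have hp2 : p ≠ 2 := by omega
  have hunr' : ∀ q' : Ideal (𝓞 F), q' ≠ ⊥ → am_Unram F K q' := fun q' h ↦ fn_unram hunr q' h
  -- a degree one prime, not above `p`, unramified and not split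
  have hinf := dn_infinite_not_split (k := F) K (by rw [hdeg]; omega)
  have hfin : {v : HeightOneSpectrum (𝓞 F) | Ideal.absNorm v.asIdeal = p}.Finite := by
    refine Set.Finite.of_finite_image (f := HeightOneSpectrum.asIdeal)
      ((Ideal.finite_setOfPred_absNorm_eq p).subset ?_) (fun a _ b _ h ↦ HeightOneSpectrum.ext h)
    rintro _ ⟨v, hv, rfl⟩
    exact hv
  obtain ⟨v, ⟨hvprime, hvsplit, hvram⟩, hvp⟩ := (hinf.sdiff hfin).nonempty
  haveI hq : v.asIdeal.IsPrime := v.isPrime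
  have hq0 : v.asIdeal ≠ ⊥ := v.ne_bot
  -- Stickelberger + reciprocity kill its Frobenius
  have hcomap : ∀ c, (Ideal.comap (fnTau p F c) v.asIdeal).IsPrime ∧
      Ideal.comap (fnTau p F c) v.asIdeal ≠ ⊥ := by
    intro c
    refine ⟨Ideal.comap_isPrime _ _, fun h ↦ ?_⟩
    have h1 := absNorm_comap_ringEquiv (fnTau p F c) v.asIdeal
    rw [h, Ideal.absNorm_bot] at h1
    exact hq0 (Ideal.absNorm_eq_zero_iff.mp h1.symm)
  have key : am_artinFun F K v.asIdeal = 1 := by
    refine eg_artin_eq_one (p := p) (F := F) hp2 (fn_pow_eq_one hdeg)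
      (fn_isPrimitiveRoot_fnZeta p F) (fnTau p F) (fun c h0 hcp ↦ fn_fnTau_zeta p F h0 hcp)
      (am_artinFun F K) (fun I J hI hJ ↦ am_artinFun_mul hI hJ) am_artinFun_top hR v.asIdeal
      hvprime hvp rfl ?_
    intro c hc0 h2c
    haveI := (hcomap c).1
    rw [am_artinFun_prime _ (hcomap c).2, am_artinFun_prime _ hq0]
    exact fn_frob_comap_fnTau hunr' ζ hζ hact v.asIdeal hq0 hc0 (by omega)
  -- but it is not split
  rw [am_artinFun_prime _ hq0] at key
  obtain ⟨Q, hQ, hQq, hQ0⟩ := am_exists_prime_over K v.asIdeal hq0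
  have hf : Q.inertiaDeg (𝓞 F) = 1 := (am_frob_eq_one_iff hq0 (hunr' _ hq0) Q).mp key
  apply hvsplit
  refine ⟨?_, ?_⟩
  · by_contra h
    exact hvram h
  · rw [Ideal.inertiaDegIn_eq_inertiaDeg v.asIdeal Q Gal(K/F)]
    exact hf

end Main

/-- **The reciprocity oracle `(R)`**: for `F = ℚ(ζ_p)` and `K/F` Galois of degree `p`, everywhere
unramified (and `K/ℚ` Galois), the Artin map kills the principal ideals. -/
def fnReciprocity (p : ℕ) [Fact p.Prime] : Prop :=
  ∀ (F K : Type) [Field F] [NumberField F] [IsCyclotomicExtension {p} ℚ F] [Field K]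
    [NumberField K] [Algebra F K] [IsGalois F K] [IsGalois ℚ K] [IsMulCommutative Gal(K/F)],
    Module.finrank F K = p →
    (∀ q : Ideal (𝓞 F), q ≠ ⊥ → am_Unram F K q) →
    ∀ α : 𝓞 F, α ≠ 0 → am_artinFun F K (Ideal.span {α}) = 1

/-- The number field statement consumed by the Galois reduction follows from reciprocity. -/
theorem nf_statement_of_reciprocity {p : ℕ} [Fact p.Prime] (h3 : 3 ≤ p)
    (hR : fnReciprocity p) : Reduction.NFStatement p := by
  intro F K _ _ _ _ _ _ _ _ hdeg hunr ζ hζ hact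
  haveI := fn_isMulCommutative (p := p) hdeg
  exact fn_false_of_reciprocity h3 hdeg hunr ζ hζ hact
    (hR F K hdeg (fun q h0 ↦ fn_unram hunr q h0))

end Fermat.Agent.S14
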