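import Mathlib

/-!
# S14: shared definitions for the class-field-theory part

`Div L`      : divisor group of a number field (free abelian group on the finite primes)
`divOf`      : divisor of a nonzero element
`normDiv`    : norm of divisors for an extension of number fields
`DivCoprime` : divisors supported off `m`
`rayPrincipal` : ray-principal divisors mod `m` (no conditions at infinity)
`IsFrobOver`, `frob`, `artin` : Frobenius elements / Artin map of an abelian extension
`SplitsCompletely`
-/

namespace Fermat.Agent.S14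

open IsDedekindDomain NumberField

/-- The divisor group of a number field: the free abelian group on the finite primes. -/
abbrev Div (L : Type*) [Field L] [NumberField L] : Type _ := HeightOneSpectrum (𝓞 L) →₀ ℤ

section DivOf

variable (L : Type*) [Field L] [NumberField L]

/-- The divisor of a nonzero element `x` of `L`: `v ↦ ord_v(x)`. -/
noncomputable def divOf (x : Lˣ) : Div L :=
  Finsupp.ofSupportFinite
    (fun v => FractionalIdeal.count L v (FractionalIdeal.spanSingleton (nonZeroDivisors (𝓞 L)) (x : L)))
    (FractionalIdeal.finite_factors _)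

theorem divOf_apply (x : Lˣ) (v : HeightOneSpectrum (𝓞 L)) :
    divOf L x v =
      FractionalIdeal.count L v (FractionalIdeal.spanSingleton (nonZeroDivisors (𝓞 L)) (x : L)) :=
  rfl

/-- The divisor of a nonzero algebraic integer. -/
noncomputable def divOfInt (a : 𝓞 L) (ha : a ≠ 0) : Div L :=
  divOf L (Units.mk0 (a : L) (by
    intro h
    exact ha (RingOfIntegers.coe_eq_zero_iff.mp h)))

/-- The subgroup of principal divisors. -/
noncomputable def principalDiv : AddSubgroup (Div L) :=
  AddSubgroup.closure (Set.range (divOf L))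

/-- Divisors whose support avoids the primes dividing `m`. -/
def DivCoprime (m : ℕ) : AddSubgroup (Div L) where
  carrier := {D | ∀ v : HeightOneSpectrum (𝓞 L), (m : 𝓞 L) ∈ v.asIdeal → D v = 0}
  zero_mem' := fun _ _ => rfl
  add_mem' := by
    intro D D' hD hD' v hv
    rw [Finsupp.add_apply, hD v hv, hD' v hv, add_zero]
  neg_mem' := by
    intro D hD v hv
    rw [Finsupp.neg_apply, hD v hv, neg_zero]

/-- Ray-principal divisors mod `m` (no condition at the infinite places):
generated by `div a` for nonzero integers `a ≡ 1 mod m`. -/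
noncomputable def rayPrincipal (m : ℕ) : AddSubgroup (Div L) :=
  AddSubgroup.closure
    {D | ∃ (a : 𝓞 L) (ha : a ≠ 0), a - 1 ∈ Ideal.span {(m : 𝓞 L)} ∧ D = divOfInt L a ha}

end DivOf

section NormDiv

variable (L L' : Type*) [Field L] [NumberField L] [Field L'] [NumberField L'] [Algebra L L']

/-- Norm of divisors: a prime `w` of `L'` goes to `f(w|v) • v`, `v = w ∩ L`. -/
noncomputable def normDiv : Div L' →+ Div L :=
  Finsupp.liftAddHom (fun w : HeightOneSpectrum (𝓞 L') =>
    (Finsupp.singleAddHom (w.under (𝓞 L))).comp
      ((zmultiplesHom ℤ) ((w.asIdeal.inertiaDeg (𝓞 L) : ℕ) : ℤ)))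

/-- A prime `v` of `L` splits completely in `L'`. -/
def SplitsCompletely (v : HeightOneSpectrum (𝓞 L)) : Prop :=
  ∀ w : HeightOneSpectrum (𝓞 L'), w.under (𝓞 L) = v →
    w.asIdeal.ramificationIdx (𝓞 L) = 1 ∧ w.asIdeal.inertiaDeg (𝓞 L) = 1

end NormDiv

section Frobenius

variable (F K : Type*) [Field F] [NumberField F] [Field K] [NumberField K] [Algebra F K]

instance smulCommClass_gal : SMulCommClass (K ≃ₐ[F] K) (𝓞 F) (𝓞 K) where
  smul_comm σ a x := by
    rw [Algebra.smul_def, Algebra.smul_def, smul_mul']
    congr 1
    apply RingOfIntegers.ext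
    show σ ((algebraMap (𝓞 F) (𝓞 K) a : 𝓞 K) : K) = ((algebraMap (𝓞 F) (𝓞 K) a : 𝓞 K) : K)
    have h : ((algebraMap (𝓞 F) (𝓞 K) a : 𝓞 K) : K) = algebraMap F K (a : F) := rfl
    rw [h, σ.commutes]

/-- `σ` is a Frobenius element of `K/F` at (some prime of `K` above) the prime `v` of `F`. -/
def IsFrobOver (σ : K ≃ₐ[F] K) (v : HeightOneSpectrum (𝓞 F)) : Prop :=
  ∃ w : HeightOneSpectrum (𝓞 K), w.under (𝓞 F) = v ∧ IsArithFrobAt (𝓞 F) σ w.asIdeal

open Classical in
/-- The Frobenius of `v` in `K/F` (meaningful when `K/F` is abelian and unramified at `v`;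
junk value `1` if there is no Frobenius element). -/
noncomputable def frob (v : HeightOneSpectrum (𝓞 F)) : K ≃ₐ[F] K :=
  if h : ∃ σ : K ≃ₐ[F] K, IsFrobOver F K σ v then h.choose else 1

variable [IsMulCommutative (K ≃ₐ[F] K)]

open scoped IsMulCommutative in
/-- The Artin map on divisors (for abelian `K/F`), written multiplicatively in the target. -/
noncomputable def artin (D : Div F) : K ≃ₐ[F] K :=
  D.prod fun v n => frob F K v ^ n

end Frobenius

end Fermat.Agent.S14
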